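import Mathlib
import Fermat.Prelude.Def_GroupCohomology_ContinuousH2Map

/-!
# S55 / G / REC / HP : abstract transport of coboundaries along an isomorphism (helper61)

If `δ : G → H` is a bijective homomorphism and `Φ : A → B` a bijective `δ`-equivariant linear
map, then a `2`-cochain `x` of `H` with values in `A` is a coboundary as soon as its transport
`Φ ∘ x ∘ (δ × δ)` is a coboundary.
-/

set_option autoImplicit false

namespace Fermat.Agent.S55.G.Rec.HP61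

open groupCohomology

variable {k : Type} [CommRing k] {G H : Type} [Group G] [Group H]
  {A : Rep k H} {B : Rep k G} (δ : G →* H) (Φ : A →ₗ[k] B)

theorem mem_coboundaries₂_of_pullPush
    (hΦ : ∀ (g : G) (a : A), Φ (A.ρ (δ g) a) = B.ρ g (Φ a))
    (hδi : Function.Injective δ) (hδs : Function.Surjective δ)
    (hΦi : Function.Injective Φ) (hΦs : Function.Surjective Φ)
    (x : H × H → A) (hx : cochainsPullPush₂ δ Φ x ∈ coboundaries₂ B) :
    x ∈ coboundaries₂ A := by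
  obtain ⟨b, hb⟩ := hx
  choose Ψ hΨ using hΦs
  choose ε hε using hδs
  have hεδ : ∀ g : G, ε (δ g) = g := fun g => hδi (hε _)
  refine ⟨fun d => Ψ (b (ε d)), ?_⟩
  funext ⟨d₁, d₂⟩
  obtain ⟨σ₁, rfl⟩ : ∃ σ, δ σ = d₁ := ⟨ε d₁, hε d₁⟩
  obtain ⟨σ₂, rfl⟩ : ∃ σ, δ σ = d₂ := ⟨ε d₂, hε d₂⟩
  apply hΦi
  have h1 : Φ (x (δ σ₁, δ σ₂)) = (d₁₂ B).hom b (σ₁, σ₂) := (congrFun hb (σ₁, σ₂)).symm
  rw [h1, d₁₂_hom_apply, d₁₂_hom_apply]
  simp only [map_add, map_sub, hΦ, hΨ, ← map_mul, hεδ]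

end Fermat.Agent.S55.G.Rec.HP61
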