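import Fermat.Agent.S55.G.Rec.HP.DescH126
import Fermat.Agent.S55.G.PL0H713
import Fermat.Agent.S55.Bridge.Krasner

/-!
# S55 / G / REC / HP : localisation dictionary, part 1 (helper61)

For a finite extension `F/ℚ` inside `ℚ̄` and a place `𝔪` of `F` above `S` (a maximal ideal of
`F ⊗ ℚ_S`, helper421's model), a *local embedding datum* `LocEmb S F 𝔪 q` consists of
`g ∈ G_ℚ` and a field embedding `φ : F_𝔪 → ℚ̄_q` over `ℚ_q` with `φ ∘ toLoc = ι_q ∘ g⁻¹` on `F`.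
Such a datum exists for `q =` the prime below `𝔪` (`nonempty_locEmb`).
-/

set_option autoImplicit false
set_option linter.unusedSectionVars false
set_option linter.style.haveILetI false

noncomputable section

namespace Fermat.Agent.S55.G.Rec.HP61

open groupCohomology Fermat.Agent.S55.G Fermat.Agent.S55.G.Rec Fermat.Agent.S55.G.Rec.HP
open scoped TensorProduct

local notation "Qb" => AlgebraicClosure ℚ
local notation "GQ" => (AlgebraicClosure ℚ ≃ₐ[ℚ] AlgebraicClosure ℚ)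

/-- A local embedding datum at the place `𝔪` of `F`: `g ∈ G_ℚ` and `φ : F_𝔪 → ℚ̄_q` with
`φ (x) = ι_q (g⁻¹ x)` for `x ∈ F`, and `φ` is "over `ℚ_q`". -/
structure LocEmb (S : Finset Nat.Primes) (F : IntermediateField ℚ Qb) (𝔪 : SPlace S ↥F)
    (q : ℕ) [Fact q.Prime] where
  /-- the global conjugating element -/
  g : GQ
  /-- the embedding of the local field -/
  φ : LocField S 𝔪 →+* PadicAlgCl q
  φ_toLoc : ∀ x : ↥F, φ (toLoc S 𝔪 x) = padicEmbedding q ((g⁻¹ : GQ) (x : Qb))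
  φ_ofQS : ∀ y : QS S, φ (LocField.ofQS S 𝔪 y) ∈ (algebraMap ℚ_[q] (PadicAlgCl q)).range
  range_φ : ∀ x : ℚ_[q], ∃ y : QS S, φ (LocField.ofQS S 𝔪 y) = algebraMap ℚ_[q] (PadicAlgCl q) x
  fin : ∃ s : Finset (PadicAlgCl q), ∀ y : LocField S 𝔪,
    φ y ∈ Submodule.span ℚ_[q] (s : Set (PadicAlgCl q))

section Exists

variable (S : Finset Nat.Primes) (F : IntermediateField ℚ Qb) [FiniteDimensional ℚ F]

/-- Every ring homomorphism `F → ℚ̄_q` is `ι_q ∘ σ` for some `σ ∈ G_ℚ`. -/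
theorem exists_gal_of_ringHom (q : ℕ) [Fact q.Prime] (j : ↥F →+* PadicAlgCl q) :
    ∃ σ : GQ, ∀ x : ↥F, j x = padicEmbedding q (σ (x : Qb)) := by
  haveI : Algebra.IsAlgebraic ℚ Qb := AlgebraicClosure.isAlgebraic ℚ
  haveI : IsAlgClosure ℚ Qb := ⟨inferInstance, inferInstance⟩
  haveI : Normal ℚ Qb := IsAlgClosure.normal ℚ Qb
  let jA : ↥F →ₐ[ℚ] PadicAlgCl q := j.toRatAlgHom
  have hmem : ∀ x : ↥F, ∃ b : Qb, padicEmbedding q b = jA x := by
    intro x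
    have hint : IsIntegral ℚ x := Algebra.IsIntegral.isIntegral x
    refine Fermat.Agent.S55.Bridge.mem_range_padicEmbedding_of_root q (minpoly ℚ x) (minpoly.ne_zero hint) _ ?_
    rw [Polynomial.aeval_algHom_apply, minpoly.aeval, map_zero]
  -- the inverse of `ι_q` on its range
  let e : Qb ≃ₐ[ℚ] (padicEmbedding q).range := AlgEquiv.ofInjectiveField (padicEmbedding q)
  have hrange : ∀ x : ↥F, jA x ∈ (padicEmbedding q).range := fun x => by
    obtain ⟨b, hb⟩ := hmem x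
    exact ⟨b, hb⟩
  let j₁ : ↥F →ₐ[ℚ] (padicEmbedding q).range := jA.codRestrict _ hrange
  let j' : ↥F →ₐ[ℚ] Qb := (e.symm : (padicEmbedding q).range →ₐ[ℚ] Qb).comp j₁
  have hj' : ∀ x : ↥F, padicEmbedding q (j' x) = j x := by
    intro x
    have h1 : ((e (j' x) : (padicEmbedding q).range) : PadicAlgCl q) = padicEmbedding q (j' x) :=
      rfl
    rw [← h1]
    change ((e (e.symm (j₁ x)) : (padicEmbedding q).range) : PadicAlgCl q) = j x
    rw [AlgEquiv.apply_symm_apply]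
    rfl
  let σ₀ : Qb →ₐ[ℚ] Qb := j'.liftNormal Qb
  have hσ₀ : ∀ x : ↥F, σ₀ (x : Qb) = j' x := fun x => j'.liftNormal_commutes Qb x
  let σ : GQ := AlgEquiv.ofBijective σ₀ (Algebra.IsAlgebraic.algHom_bijective σ₀)
  refine ⟨σ, fun x => ?_⟩
  rw [← hj' x]
  congr 1
  exact (hσ₀ x).symm

/-- **Existence of local embedding data** at the prime below `𝔪`. -/
theorem nonempty_locEmb (𝔪 : SPlace S ↥F) :
    haveI : Fact ((PL0H713.primeOf S ↥F 𝔪).1 : ℕ).Prime := ⟨(PL0H713.primeOf S ↥F 𝔪).1.2⟩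
    Nonempty (LocEmb S F 𝔪 ((PL0H713.primeOf S ↥F 𝔪).1 : ℕ)) := by
  haveI hq : Fact ((PL0H713.primeOf S ↥F 𝔪).1 : ℕ).Prime := ⟨(PL0H713.primeOf S ↥F 𝔪).1.2⟩
  letI := PL0H713.algQq S ↥F 𝔪
  haveI : Module.Finite (Qq (PL0H713.primeOf S ↥F 𝔪).1) (LocField S 𝔪) :=
    PL0H713.finite_locField S ↥F 𝔪
  haveI : Algebra.IsAlgebraic (Qq (PL0H713.primeOf S ↥F 𝔪).1) (LocField S 𝔪) :=
    Algebra.IsAlgebraic.of_finite _ _
  let φA : LocField S 𝔪 →ₐ[Qq (PL0H713.primeOf S ↥F 𝔪).1]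
      PadicAlgCl ((PL0H713.primeOf S ↥F 𝔪).1 : ℕ) := IsAlgClosed.lift
  have hφ : ∀ x : Qq (PL0H713.primeOf S ↥F 𝔪).1,
      φA (PL0H713.ofQq S ↥F 𝔪 x) = algebraMap _ _ x := fun x => φA.commutes x
  obtain ⟨σ, hσ⟩ := exists_gal_of_ringHom F ((PL0H713.primeOf S ↥F 𝔪).1 : ℕ)
    ((φA : LocField S 𝔪 →+* _).comp (toLoc S 𝔪))
  refine ⟨{ g := σ⁻¹
            φ := (φA : LocField S 𝔪 →+* _)
            φ_toLoc := fun x => ?_
            φ_ofQS := fun y => ?_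
            range_φ := fun x => ?_
            fin := ?_ }⟩
  · rw [inv_inv]
    exact hσ x
  · refine ⟨QS.toPi S y (PL0H713.primeOf S ↥F 𝔪), ?_⟩
    rw [PL0H713.ofQS_eq]
    exact (hφ _).symm
  · exact ⟨PL0H713.single S (PL0H713.primeOf S ↥F 𝔪) x, hφ x⟩
  · classical
    obtain ⟨t, ht⟩ := (inferInstance : Module.Finite (Qq (PL0H713.primeOf S ↥F 𝔪).1)
      (LocField S 𝔪)).fg_top
    refine ⟨t.image φA, fun y => ?_⟩
    have hy : y ∈ Submodule.span (Qq (PL0H713.primeOf S ↥F 𝔪).1) (t : Set (LocField S 𝔪)) := by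
      rw [ht]; trivial
    have := Submodule.mem_map_of_mem (f := φA.toLinearMap) hy
    rw [Submodule.map_span] at this
    rw [Finset.coe_image]
    exact this

end Exists

/-! ## The dictionary attached to a local embedding datum -/

section Dict

variable {S : Finset Nat.Primes} (U : Subgroup GQ) {F : IntermediateField ℚ Qb}
  [FiniteDimensional ℚ F] [Normal ℚ F] {𝔪 : SPlace S ↥F} {q : ℕ} [Fact q.Prime]
  (D : LocEmb S F 𝔪 q)

local notation "Gq" => (PadicAlgCl q ≃ₐ[ℚ_[q]] PadicAlgCl q)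

lemma LocEmb.φ_injective : Function.Injective D.φ := D.φ.injective

/-- `φ ∘ mk` on pure tensors. -/
lemma LocEmb.φ_mk_tmul (x : ↥F) (y : QS S) :
    D.φ (LocField.mk S 𝔪 (x ⊗ₜ[ℚ] y)) =
      padicEmbedding q ((D.g⁻¹ : GQ) (x : Qb)) * D.φ (LocField.ofQS S 𝔪 y) := by
  rw [PL0H713.mk_tmul, map_mul, D.φ_toLoc]

/-- Elements of `G_{ℚ_q}` fix `φ (ofQS y)`. -/
lemma LocEmb.apply_φ_ofQS (τ : Gq) (y : QS S) :
    τ (D.φ (LocField.ofQS S 𝔪 y)) = D.φ (LocField.ofQS S 𝔪 y) := by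
  obtain ⟨c, hc⟩ := D.φ_ofQS y
  rw [← hc]
  exact τ.commutes c

/-- The image in `Gal(F/ℚ)` (as an element of `lvlGal U F`) of `τ ∈ locSub q g U`. -/
def LocEmb.rho₀ : ↥(locSub q D.g U) →* ↥(lvlGal U F) :=
  (lvlHom U F).comp (locHom q D.g U)

lemma LocEmb.rho₀_smul_coe (τ : ↥(locSub q D.g U)) (x : ↥F) :
    ((D.rho₀ U τ • x : ↥F) : Qb) =
      D.g (localGaloisToGlobal q (τ : Gq) ((D.g⁻¹ : GQ) (x : Qb))) := by
  change ((lvlHom U F (locHom q D.g U τ) • x : ↥F) : Qb) = _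
  rw [lvlHom_smul_coe]
  rfl

/-- **Equivariance** of `φ ∘ mk : F ⊗ ℚ_S → ℚ̄_q`. -/
theorem LocEmb.φ_mk_asAut (τ : ↥(locSub q D.g U)) (z : AS S ↥F) :
    D.φ (LocField.mk S 𝔪 (asAut S ↥(lvlGal U F) ↥F (D.rho₀ U τ) z)) =
      (τ : Gq) (D.φ (LocField.mk S 𝔪 z)) := by
  induction z using TensorProduct.induction_on with
  | zero => simp
  | tmul x y =>
    rw [asAut_tmul, D.φ_mk_tmul, D.φ_mk_tmul, map_mul, D.apply_φ_ofQS, D.rho₀_smul_coe]
    congr 1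
    rw [← padicEmbedding_localGaloisToGlobal]
    congr 1
    exact AlgEquiv.symm_apply_apply D.g _
  | add a b ha hb => simp only [map_add, ha, hb]

lemma LocEmb.mk_eq_zero_iff (z : AS S ↥F) :
    D.φ (LocField.mk S 𝔪 z) = 0 ↔ z ∈ 𝔪.asIdeal := by
  rw [map_eq_zero_iff D.φ D.φ_injective, LocField.mk_eq_zero_iff]

/-- `ρ₀ τ` lies in the decomposition group of `𝔪`. -/
theorem LocEmb.rho₀_mem_decomp (τ : ↥(locSub q D.g U)) :
    D.rho₀ U τ ∈ decomp S ↥(lvlGal U F) 𝔪 := by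
  rw [mem_decomp_iff]
  refine MaximalSpectrum.ext (Ideal.ext fun z => ?_)
  rw [mem_sPlaceSMul_iff, ← D.mk_eq_zero_iff, ← D.mk_eq_zero_iff, ← map_inv, D.φ_mk_asAut,
    EmbeddingLike.map_eq_zero_iff]

/-- The homomorphism `ρ : locSub q g U → D_𝔪`. -/
def LocEmb.rho : ↥(locSub q D.g U) →* ↥(decomp S ↥(lvlGal U F) 𝔪) :=
  (D.rho₀ U).codRestrict _ (D.rho₀_mem_decomp U)

@[simp] lemma LocEmb.rho_coe (τ : ↥(locSub q D.g U)) :
    ((D.rho U τ : ↥(decomp S ↥(lvlGal U F) 𝔪)) : ↥(lvlGal U F)) = D.rho₀ U τ := rfl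

/-- `φ` intertwines the action of `ρ τ` on `F_𝔪` with the action of `τ` on `ℚ̄_q`. -/
theorem LocEmb.φ_locAut (τ : ↥(locSub q D.g U)) (y : LocField S 𝔪) :
    D.φ (locAut S ↥(lvlGal U F) 𝔪 (D.rho U τ) y) = (τ : Gq) (D.φ y) := by
  obtain ⟨z, rfl⟩ := LocField.mk_surjective S 𝔪 y
  rw [locAut_mk]
  exact D.φ_mk_asAut U τ z

/-! ### Surjectivity of `ρ` -/

/-- The preimage in `F_𝔪` of `x ∈ ℚ_q`. -/
def LocEmb.ofQ : ℚ_[q] →+* LocField S 𝔪 where
  toFun x := LocField.ofQS S 𝔪 (Classical.choose (D.range_φ x))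
  map_one' := D.φ_injective (by rw [Classical.choose_spec (D.range_φ 1), map_one, map_one])
  map_mul' x y := D.φ_injective (by
    rw [Classical.choose_spec (D.range_φ (x * y)), map_mul, map_mul,
      Classical.choose_spec (D.range_φ x), Classical.choose_spec (D.range_φ y)])
  map_zero' := D.φ_injective (by rw [Classical.choose_spec (D.range_φ 0), map_zero, map_zero])
  map_add' x y := D.φ_injective (by
    rw [Classical.choose_spec (D.range_φ (x + y)), map_add, map_add,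
      Classical.choose_spec (D.range_φ x), Classical.choose_spec (D.range_φ y)])

lemma LocEmb.φ_ofQ (x : ℚ_[q]) : D.φ (D.ofQ x) = algebraMap ℚ_[q] (PadicAlgCl q) x :=
  Classical.choose_spec (D.range_φ x)

lemma locAut_ofQS (d : ↥(decomp S ↥(lvlGal U F) 𝔪)) (y : QS S) :
    locAut S ↥(lvlGal U F) 𝔪 d (LocField.ofQS S 𝔪 y) = LocField.ofQS S 𝔪 y := by
  change locAut S ↥(lvlGal U F) 𝔪 d (LocField.mk S 𝔪 (asIncl S ↥F y)) = _
  rw [locAut_mk, asAut_asIncl]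
  rfl

lemma LocEmb.locAut_ofQ (d : ↥(decomp S ↥(lvlGal U F) 𝔪)) (x : ℚ_[q]) :
    locAut S ↥(lvlGal U F) 𝔪 d (D.ofQ x) = D.ofQ x :=
  locAut_ofQS U d _

theorem normal_padicAlgCl61 (q : ℕ) [Fact q.Prime] : Normal ℚ_[q] (PadicAlgCl q) := by
  haveI : Algebra.IsAlgebraic ℚ_[q] (PadicAlgCl q) := AlgebraicClosure.isAlgebraic ℚ_[q]
  haveI : IsAlgClosure ℚ_[q] (PadicAlgCl q) := ⟨inferInstance, inferInstance⟩
  exact IsAlgClosure.normal ℚ_[q] (PadicAlgCl q)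

/-- Every element of the decomposition group is induced by some `τ ∈ G_{ℚ_q}`. -/
theorem LocEmb.exists_lift (d : ↥(decomp S ↥(lvlGal U F) 𝔪)) :
    ∃ τ : Gq, ∀ y : LocField S 𝔪, τ (D.φ y) = D.φ (locAut S ↥(lvlGal U F) 𝔪 d y) := by
  haveI : Algebra.IsAlgebraic ℚ_[q] (PadicAlgCl q) := AlgebraicClosure.isAlgebraic ℚ_[q]
  haveI : Normal ℚ_[q] (PadicAlgCl q) := normal_padicAlgCl61 q
  letI : Algebra ℚ_[q] (LocField S 𝔪) := (D.ofQ).toAlgebra
  letI : Algebra (LocField S 𝔪) (PadicAlgCl q) := D.φ.toAlgebra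
  haveI : IsScalarTower ℚ_[q] (LocField S 𝔪) (PadicAlgCl q) :=
    IsScalarTower.of_algebraMap_eq (fun x => (D.φ_ofQ x).symm)
  let ψ : LocField S 𝔪 →ₐ[ℚ_[q]] PadicAlgCl q :=
    { toRingHom := D.φ.comp (locAut S ↥(lvlGal U F) 𝔪 d : LocField S 𝔪 →+* LocField S 𝔪)
      commutes' := fun x => by
        change D.φ (locAut S ↥(lvlGal U F) 𝔪 d (D.ofQ x)) = _
        rw [D.locAut_ofQ U d x, D.φ_ofQ] }
  let τ₀ : PadicAlgCl q →ₐ[ℚ_[q]] PadicAlgCl q := ψ.liftNormal (PadicAlgCl q)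
  have hτ₀ : ∀ y : LocField S 𝔪, τ₀ (D.φ y) = ψ y := fun y => ψ.liftNormal_commutes _ y
  refine ⟨AlgEquiv.ofBijective τ₀ (Algebra.IsAlgebraic.algHom_bijective τ₀), fun y => ?_⟩
  exact hτ₀ y

/-- If `τ ∈ G_{ℚ_q}` induces on `φ(F_𝔪)` the automorphism `d` of the decomposition group, then
`τ ∈ locSub q g U`. -/
theorem LocEmb.mem_locSub_of_lift (hFU : F.fixingSubgroup ≤ U)
    (d : ↥(decomp S ↥(lvlGal U F) 𝔪)) (τ : Gq)
    (hτ : ∀ y : LocField S 𝔪, τ (D.φ y) = D.φ (locAut S ↥(lvlGal U F) 𝔪 d y)) :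
    ∃ h : τ ∈ locSub q D.g U, D.rho U ⟨τ, h⟩ = d := by
  obtain ⟨u, hu⟩ := (d : ↥(lvlGal U F)).2
  have hux : ∀ x : ↥F, (u : GQ) (x : Qb) = (((d : ↥(lvlGal U F)) • x : ↥F) : Qb) := by
    intro x
    rw [← lvlRes_apply_coe U F u x, hu]
    rfl
  have key : ∀ x : ↥F,
      (D.g * localGaloisToGlobal q τ * D.g⁻¹) (x : Qb) = (u : GQ) (x : Qb) := by
    intro x
    have h1 : padicEmbedding q ((D.g⁻¹ : GQ) ((D.g * localGaloisToGlobal q τ * D.g⁻¹) (x : Qb)))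
        = padicEmbedding q ((D.g⁻¹ : GQ) ((u : GQ) (x : Qb))) := by
      have e1 : (D.g⁻¹ : GQ) ((D.g * localGaloisToGlobal q τ * D.g⁻¹) (x : Qb)) =
          localGaloisToGlobal q τ ((D.g⁻¹ : GQ) (x : Qb)) :=
        AlgEquiv.symm_apply_apply D.g _
      rw [e1, padicEmbedding_localGaloisToGlobal, ← D.φ_toLoc, hτ, locAut_toLoc, D.φ_toLoc, hux]
    exact (D.g⁻¹ : GQ).injective ((padicEmbedding q).injective h1)
  have hmem : D.g * localGaloisToGlobal q τ * D.g⁻¹ ∈ U := by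
    have h2 : (u : GQ)⁻¹ * (D.g * localGaloisToGlobal q τ * D.g⁻¹) ∈ F.fixingSubgroup := by
      rw [IntermediateField.mem_fixingSubgroup_iff]
      intro x hx
      change (u : GQ)⁻¹ ((D.g * localGaloisToGlobal q τ * D.g⁻¹) x) = x
      rw [key ⟨x, hx⟩]
      exact AlgEquiv.symm_apply_apply (u : GQ) x
    have h3 := U.mul_mem u.2 (hFU h2)
    rwa [mul_inv_cancel_left] at h3
  refine ⟨hmem, ?_⟩
  apply Subtype.ext
  apply Subtype.ext
  ext x
  change ((lvlRes U F (locHom q D.g U ⟨τ, hmem⟩) x : ↥F) : Qb) = _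
  rw [lvlRes_apply_coe]
  change (D.g * localGaloisToGlobal q τ * D.g⁻¹) (x : Qb) = _
  rw [key x, hux]
  rfl

/-- **`ρ` is onto the decomposition group.** -/
theorem LocEmb.rho_surjective (hFU : F.fixingSubgroup ≤ U) : Function.Surjective (D.rho U) := by
  intro d
  obtain ⟨τ, hτ⟩ := D.exists_lift U d
  obtain ⟨h, hd⟩ := D.mem_locSub_of_lift U hFU d τ hτ
  exact ⟨⟨τ, h⟩, hd⟩

/-- The action of the decomposition group on `F_𝔪` is faithful. -/
theorem locAut_injective :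
    Function.Injective (locAut S ↥(lvlGal U F) 𝔪) := by
  intro d d' h
  apply Subtype.ext
  apply Subtype.ext
  ext x
  have h1 := congrArg (fun e : LocField S 𝔪 ≃+* LocField S 𝔪 => e (toLoc S 𝔪 x)) h
  simp only [locAut_toLoc] at h1
  have h2 := (toLoc S 𝔪).injective h1
  exact congrArg Subtype.val h2

/-- `ρ τ = 1` iff `τ` fixes `φ(F_𝔪)` pointwise. -/
theorem LocEmb.rho_eq_one_iff (τ : ↥(locSub q D.g U)) :
    D.rho U τ = 1 ↔ ∀ y : LocField S 𝔪, (τ : Gq) (D.φ y) = D.φ y := by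
  constructor
  · intro h y
    rw [← D.φ_locAut U τ y, h, map_one]
    rfl
  · intro h
    apply locAut_injective U
    ext y
    apply D.φ_injective
    rw [D.φ_locAut, h, map_one]
    rfl

end Dict

end Fermat.Agent.S55.G.Rec.HP61
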