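import Fermat.Agent.S55.G.Rec.HP61.Level
import Fermat.Agent.S55.G.Rec.HP61.Abs

/-!
# S55 / G / REC / HP : leaf HP-LG `LocalGlueSpec` (helper61, 2nd owner)

`localGlue : LocalGlueSpec` (unconditional): if all absolute localisations `locBr q g U [c]` of
the class of a level cocycle `c = Inf f` vanish, then all intrinsic localisations
`locMapL S Γ 𝔪 2 [f]` of the finite-level class vanish.

Reusable dictionary for a local embedding datum `D : LocEmb S F 𝔪 q` (see `Embed.lean`,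
`Level.lean`): `D.delta : Gal(E/K_V) ≃ D_𝔪`, `D.fE f` (the cocycle of `Gal(E/K_V)` with values in
`Eˣ` attached to a global finite-level cocycle `f`), `D.isAbsInflation` (its absolute inflation
is the localisation of `Inf f`), `D.cls_fE_eq_zero_iff`.
-/

set_option autoImplicit false
set_option linter.unusedSectionVars false
set_option linter.style.haveILetI false

noncomputable section

namespace Fermat.Agent.S55.G.Rec.HP61

open groupCohomology Fermat.Agent.S55.G Fermat.Agent.S55.G.Rec Fermat.Agent.S55.G.Rec.HP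
  Fermat.Agent.S55.G.Rec.Loc
open scoped TensorProduct

local notation "Qb" => AlgebraicClosure ℚ
local notation "GQ" => (AlgebraicClosure ℚ ≃ₐ[ℚ] AlgebraicClosure ℚ)

variable {S : Finset Nat.Primes} (U : Subgroup GQ) {F : IntermediateField ℚ Qb}
  [FiniteDimensional ℚ F] [Normal ℚ F] {𝔪 : SPlace S ↥F} {q : ℕ} [Fact q.Prime]
  (D : LocEmb S F 𝔪 q) (hFU : F.fixingSubgroup ≤ U)

local notation "Gq" => (PadicAlgCl q ≃ₐ[ℚ_[q]] PadicAlgCl q)

/-! ## The isomorphism `Gal(E/K_V) ≃ D_𝔪` -/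

/-- `φ` with values in `E`. -/
def LocEmb.φE : LocField S 𝔪 →+* ↥(D.E U hFU) :=
  D.φ.codRestrict (D.E U hFU) (D.φ_mem_E U hFU)

lemma LocEmb.φE_coe (y : LocField S 𝔪) :
    ((D.φE U hFU y : ↥(D.E U hFU)) : PadicAlgCl q) = D.φ y := rfl

lemma LocEmb.φE_injective : Function.Injective (D.φE U hFU) := (D.φE U hFU).injective

lemma LocEmb.φE_surjective : Function.Surjective (D.φE U hFU) := fun z => by
  obtain ⟨y, hy⟩ := z.2
  exact ⟨y, Subtype.ext hy⟩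

/-- `res τ` acts on `E = φ(F_𝔪)` as `ρ τ` acts on `F_𝔪`. -/
lemma LocEmb.resHom_φE (τ : ↥(locSub q D.g U)) (y : LocField S 𝔪) :
    resHom q (locSub q D.g U) (D.E U hFU) τ (D.φE U hFU y) =
      D.φE U hFU (locAut S ↥(lvlGal U F) 𝔪 (D.rho U τ) y) := by
  apply Subtype.ext
  rw [resHom_apply_coe]
  exact (D.φ_locAut U τ y).symm

lemma LocEmb.resHom_surjective :
    Function.Surjective (resHom q (locSub q D.g U) (D.E U hFU)) :=
  H363.resHom_surjective q _ (D.fixingSubgroup_fixedFld U hFU) _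

lemma LocEmb.ker_resHom_le :
    (resHom q (locSub q D.g U) (D.E U hFU)).ker ≤ (D.rho U).ker := by
  intro τ hτ
  rw [MonoidHom.mem_ker] at hτ ⊢
  rw [D.rho_eq_one_iff]
  intro y
  have h1 := resHom_apply_coe q (locSub q D.g U) (D.E U hFU) τ (D.φE U hFU y)
  rw [hτ] at h1
  exact h1.symm

/-- The homomorphism `δ : Gal(E/K_V) → D_𝔪` with `δ ∘ res = ρ`. -/
def LocEmb.delta :
    (↥(D.E U hFU) ≃ₐ[fixedFld q (locSub q D.g U)] ↥(D.E U hFU)) →*
      ↥(decomp S ↥(lvlGal U F) 𝔪) :=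
  (resHom q (locSub q D.g U) (D.E U hFU)).liftOfRightInverse
    (Function.surjInv (D.resHom_surjective U hFU))
    (Function.rightInverse_surjInv _) ⟨D.rho U, D.ker_resHom_le U hFU⟩

lemma LocEmb.delta_resHom (τ : ↥(locSub q D.g U)) :
    D.delta U hFU (resHom q (locSub q D.g U) (D.E U hFU) τ) = D.rho U τ :=
  MonoidHom.liftOfRightInverse_comp_apply _ _ _ _ τ

lemma LocEmb.delta_surjective : Function.Surjective (D.delta U hFU) := fun d => by
  obtain ⟨τ, rfl⟩ := D.rho_surjective U hFU d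
  exact ⟨_, D.delta_resHom U hFU τ⟩

/-- `δ σ` acts on `F_𝔪` as `σ` acts on `E`. -/
lemma LocEmb.φE_locAut_delta
    (σ : ↥(D.E U hFU) ≃ₐ[fixedFld q (locSub q D.g U)] ↥(D.E U hFU)) (y : LocField S 𝔪) :
    D.φE U hFU (locAut S ↥(lvlGal U F) 𝔪 (D.delta U hFU σ) y) = σ (D.φE U hFU y) := by
  obtain ⟨τ, rfl⟩ := D.resHom_surjective U hFU σ
  rw [D.delta_resHom, D.resHom_φE]

lemma LocEmb.delta_injective : Function.Injective (D.delta U hFU) := by
  rw [injective_iff_map_eq_one]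
  intro σ hσ
  ext z
  obtain ⟨y, rfl⟩ := D.φE_surjective U hFU z
  rw [← D.φE_locAut_delta U hFU σ y, hσ, map_one]
  rfl

/-! ## Cochains -/

/-- `φ` on units, additively. -/
def LocEmb.ΦA : Additive (LocField S 𝔪)ˣ →+ Additive (↥(D.E U hFU))ˣ :=
  MonoidHom.toAdditive (Units.map (D.φE U hFU : LocField S 𝔪 →* ↥(D.E U hFU)))

lemma LocEmb.ΦA_coe (a : Additive (LocField S 𝔪)ˣ) :
    (((Additive.toMul (D.ΦA U hFU a) : (↥(D.E U hFU))ˣ) : ↥(D.E U hFU)) : PadicAlgCl q) =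
      D.φ ((Additive.toMul a : (LocField S 𝔪)ˣ) : LocField S 𝔪) := rfl

lemma LocEmb.ΦA_injective : Function.Injective (D.ΦA U hFU) := by
  intro a b hab
  apply Additive.toMul.injective
  apply Units.ext
  apply D.φ_injective
  rw [← D.ΦA_coe U hFU, ← D.ΦA_coe U hFU, hab]

lemma LocEmb.ΦA_surjective : Function.Surjective (D.ΦA U hFU) := by
  intro b
  obtain ⟨y, hy⟩ := D.φE_surjective U hFU ((Additive.toMul b : (↥(D.E U hFU))ˣ) : ↥(D.E U hFU))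
  have hy0 : y ≠ 0 := by
    rintro rfl
    rw [map_zero] at hy
    exact (Additive.toMul b : (↥(D.E U hFU))ˣ).ne_zero hy.symm
  refine ⟨Additive.ofMul (Units.mk0 y hy0), ?_⟩
  apply Additive.toMul.injective
  apply Units.ext
  exact hy

/-- equivariance of `ΦA` along `δ`. -/
lemma LocEmb.ΦA_ρ (σ : ↥(D.E U hFU) ≃ₐ[fixedFld q (locSub q D.g U)] ↥(D.E U hFU))
    (a : Additive (LocField S 𝔪)ˣ) :
    D.ΦA U hFU ((LocRep S ↥(lvlGal U F) 𝔪).ρ (D.delta U hFU σ) a) =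
      (L.unitsRep (fixedFld q (locSub q D.g U)) ↥(D.E U hFU)).ρ σ (D.ΦA U hFU a) := by
  apply Additive.toMul.injective
  apply Units.ext
  exact D.φE_locAut_delta U hFU σ _

/-- The local cocycle at `𝔪` of a finite-level cocycle. -/
def locCoc (𝔪 : SPlace S ↥F) (f : cocycles₂ (LRep ↥(lvlGal U F) ↥F)) :
    cocycles₂ (LocRep S ↥(lvlGal U F) 𝔪) :=
  (mapCocycles₂ (decomp S ↥(lvlGal U F) 𝔪).subtype (lToLocRepHom S ↥(lvlGal U F) 𝔪)).hom f

lemma locCoc_apply (f : cocycles₂ (LRep ↥(lvlGal U F) ↥F))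
    (d₁ d₂ : ↥(decomp S ↥(lvlGal U F) 𝔪)) :
    (locCoc U 𝔪 f : ↥(decomp S ↥(lvlGal U F) 𝔪) × ↥(decomp S ↥(lvlGal U F) 𝔪) →
        LocRep S ↥(lvlGal U F) 𝔪) (d₁, d₂) =
      lToLoc S 𝔪 ((f : ↥(lvlGal U F) × ↥(lvlGal U F) → LRep ↥(lvlGal U F) ↥F)
        ((d₁ : ↥(lvlGal U F)), (d₂ : ↥(lvlGal U F)))) := rfl

lemma locMapL_H2π (f : cocycles₂ (LRep ↥(lvlGal U F) ↥F)) :
    (locMapL S ↥(lvlGal U F) 𝔪 2).hom ((H2π (LRep ↥(lvlGal U F) ↥F)).hom f) =
      (H2π (LocRep S ↥(lvlGal U F) 𝔪)).hom (locCoc U 𝔪 f) := by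
  have h := H2π_comp_map (decomp S ↥(lvlGal U F) 𝔪).subtype (lToLocRepHom S ↥(lvlGal U F) 𝔪)
  exact congrArg (fun m => m.hom f) h

/-- `ΦA` as a `ℤ`-linear map between the Galois modules. -/
def LocEmb.ΦL : (LocRep S ↥(lvlGal U F) 𝔪) →ₗ[ℤ]
    (L.unitsRep (fixedFld q (locSub q D.g U)) ↥(D.E U hFU)) :=
  (D.ΦA U hFU).toIntLinearMap

lemma LocEmb.ΦL_apply (a : LocRep S ↥(lvlGal U F) 𝔪) : D.ΦL U hFU a = D.ΦA U hFU a := rfl

lemma LocEmb.ΦL_ρ (σ : ↥(D.E U hFU) ≃ₐ[fixedFld q (locSub q D.g U)] ↥(D.E U hFU))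
    (a : LocRep S ↥(lvlGal U F) 𝔪) :
    D.ΦL U hFU ((LocRep S ↥(lvlGal U F) 𝔪).ρ (D.delta U hFU σ) a) =
      (L.unitsRep (fixedFld q (locSub q D.g U)) ↥(D.E U hFU)).ρ σ (D.ΦL U hFU a) :=
  D.ΦA_ρ U hFU σ a

/-- The cocycle of `Gal(E/K_V)` with values in `Eˣ` attached to `f`:
`(σ₁, σ₂) ↦ φ (f_𝔪 (δ σ₁, δ σ₂))`. -/
def LocEmb.cocE (f : cocycles₂ (LRep ↥(lvlGal U F) ↥F)) :
    cocycles₂ (L.unitsRep (fixedFld q (locSub q D.g U)) ↥(D.E U hFU)) :=
  ⟨cochainsPullPush₂ (D.delta U hFU) (D.ΦL U hFU)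
      (locCoc U 𝔪 f : ↥(decomp S ↥(lvlGal U F) 𝔪) × ↥(decomp S ↥(lvlGal U F) 𝔪) →
        LocRep S ↥(lvlGal U F) 𝔪),
    cochainsPullPush₂_mem_cocycles₂ (D.delta U hFU) (D.ΦL U hFU) (D.ΦL_ρ U hFU)
      (locCoc U 𝔪 f).2⟩

lemma LocEmb.cocE_apply (f : cocycles₂ (LRep ↥(lvlGal U F) ↥F))
    (g h : ↥(D.E U hFU) ≃ₐ[fixedFld q (locSub q D.g U)] ↥(D.E U hFU)) :
    (D.cocE U hFU f : (↥(D.E U hFU) ≃ₐ[fixedFld q (locSub q D.g U)] ↥(D.E U hFU)) ×
      (↥(D.E U hFU) ≃ₐ[fixedFld q (locSub q D.g U)] ↥(D.E U hFU)) →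
      L.unitsRep (fixedFld q (locSub q D.g U)) ↥(D.E U hFU)) (g, h) =
    D.ΦA U hFU ((locCoc U 𝔪 f : ↥(decomp S ↥(lvlGal U F) 𝔪) ×
      ↥(decomp S ↥(lvlGal U F) 𝔪) → LocRep S ↥(lvlGal U F) 𝔪)
        (D.delta U hFU g, D.delta U hFU h)) := rfl

/-- The localisation at `(q, g)` of the inflation of `f` is the absolute inflation of
`D.cocE f`. -/
theorem LocEmb.isAbsInflation (f : cocycles₂ (LRep ↥(lvlGal U F) ↥F))
    (c : ↥(levelCocycles₂ U.subtype (gModOn U))) (hinf : IsGInflation U F f c) :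
    IsAbsInflation q (locSub q D.g U) (D.E U hFU) (D.cocE U hFU f) (locCocycles₂ q D.g U c) := by
  unfold IsAbsInflation
  rw [coe_locCocycles₂]
  funext ⟨τ₁, τ₂⟩
  have hc : (c : ↥U × ↥U → gModOn U) (locHom q D.g U τ₁, locHom q D.g U τ₂) =
      gInflCochain₂ U F (f : ↥(lvlGal U F) × ↥(lvlGal U F) → Additive (↥F)ˣ)
        (locHom q D.g U τ₁, locHom q D.g U τ₂) := congrFun hinf _
  have hL : locCochain₂ q D.g U (c : ↥U × ↥U → gModOn U) (τ₁, τ₂) =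
      locPush q D.g U (gInflCochain₂ U F
        (f : ↥(lvlGal U F) × ↥(lvlGal U F) → Additive (↥F)ˣ)
          (locHom q D.g U τ₁, locHom q D.g U τ₂)) :=
    congrArg (locPush q D.g U) hc
  have hpair : ((D.delta U hFU (resHom q (locSub q D.g U) (D.E U hFU) τ₁),
      D.delta U hFU (resHom q (locSub q D.g U) (D.E U hFU) τ₂)) :
        ↥(decomp S ↥(lvlGal U F) 𝔪) × ↥(decomp S ↥(lvlGal U F) 𝔪)) =
      (D.rho U τ₁, D.rho U τ₂) :=
    Prod.ext (D.delta_resHom U hFU τ₁) (D.delta_resHom U hFU τ₂)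
  have hR : inflCochain₂ q (locSub q D.g U) (D.E U hFU)
      (D.cocE U hFU f : (↥(D.E U hFU) ≃ₐ[fixedFld q (locSub q D.g U)] ↥(D.E U hFU)) ×
        (↥(D.E U hFU) ≃ₐ[fixedFld q (locSub q D.g U)] ↥(D.E U hFU)) →
        L.unitsRep (fixedFld q (locSub q D.g U)) ↥(D.E U hFU)) (τ₁, τ₂) =
      Additive.ofMul (unitsIncl q (locSub q D.g U) (D.E U hFU) (Additive.toMul
        (D.ΦA U hFU ((locCoc U 𝔪 f : ↥(decomp S ↥(lvlGal U F) 𝔪) ×
          ↥(decomp S ↥(lvlGal U F) 𝔪) → LocRep S ↥(lvlGal U F) 𝔪)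
            (D.rho U τ₁, D.rho U τ₂))))) :=
    congrArg (fun p => Additive.ofMul (unitsIncl q (locSub q D.g U) (D.E U hFU) (Additive.toMul
        (D.ΦA U hFU ((locCoc U 𝔪 f : ↥(decomp S ↥(lvlGal U F) 𝔪) ×
          ↥(decomp S ↥(lvlGal U F) 𝔪) → LocRep S ↥(lvlGal U F) 𝔪) p))))) hpair
  refine hL.trans (Eq.trans ?_ hR.symm)
  apply Additive.toMul.injective
  apply Units.ext
  exact (D.φ_toLoc _).symm

/-- **Injectivity of local inflation** in the dictionary: the class of `D.cocE f` vanishes iff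
the localisation of `[f]` at `𝔪` vanishes. -/
theorem LocEmb.locMapL_eq_zero_of_cls (f : cocycles₂ (LRep ↥(lvlGal U F) ↥F))
    (h : L.cls (D.cocE U hFU f) = 0) :
    (locMapL S ↥(lvlGal U F) 𝔪 2).hom ((H2π (LRep ↥(lvlGal U F) ↥F)).hom f) = 0 := by
  rw [locMapL_H2π, H2π_eq_zero_iff]
  have h' : (D.cocE U hFU f : (↥(D.E U hFU) ≃ₐ[fixedFld q (locSub q D.g U)] ↥(D.E U hFU)) ×
        (↥(D.E U hFU) ≃ₐ[fixedFld q (locSub q D.g U)] ↥(D.E U hFU)) →
        L.unitsRep (fixedFld q (locSub q D.g U)) ↥(D.E U hFU)) ∈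
      coboundaries₂ (L.unitsRep (fixedFld q (locSub q D.g U)) ↥(D.E U hFU)) :=
    (H2π_eq_zero_iff _).1 h
  exact mem_coboundaries₂_of_pullPush (D.delta U hFU) (D.ΦL U hFU) (D.ΦL_ρ U hFU)
    (D.delta_injective U hFU) (D.delta_surjective U hFU) (D.ΦA_injective U hFU)
    (D.ΦA_surjective U hFU) _ h'

include hFU in
/-- **HP-LG for one local embedding datum.** -/
theorem LocEmb.localGlue (f : cocycles₂ (LRep ↥(lvlGal U F) ↥F))
    (c : ↥(levelCocycles₂ U.subtype (gModOn U))) (hinf : IsGInflation U F f c)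
    (hloc : locBr q D.g U (continuousH2π U.subtype (gModOn U) c) = 0) :
    (locMapL S ↥(lvlGal U F) 𝔪 2).hom ((H2π (LRep ↥(lvlGal U F) ↥F)).hom f) = 0 := by
  apply D.locMapL_eq_zero_of_cls U hFU f
  have hcob : ((locCocycles₂ q D.g U c : ↥(levelCocycles₂ (lHom q (locSub q D.g U))
      (lModOn q (locSub q D.g U)))) : ↥(locSub q D.g U) × ↥(locSub q D.g U) →
        lModOn q (locSub q D.g U)) ∈
      levelCoboundaries₂ (lHom q (locSub q D.g U)) (lModOn q (locSub q D.g U)) := by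
    rw [locBr_mk] at hloc
    exact (continuousH2π_eq_zero_iff _ _ _).1 hloc
  exact H363.down q (locSub q D.g U) (D.isOpenL U hFU) (D.E U hFU) (D.cocE U hFU f)
    (locCocycles₂ q D.g U c) (D.isAbsInflation U hFU f c hinf) hcob

/-- **HP-LG** (`LocalGlueSpec`), unconditionally. -/
theorem localGlue : LocalGlueSpec := by
  intro U F _ _ hFU f c hinf hloc S 𝔪
  haveI : Fact ((PL0H713.primeOf S ↥F 𝔪).1 : ℕ).Prime := ⟨(PL0H713.primeOf S ↥F 𝔪).1.2⟩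
  obtain ⟨D⟩ := nonempty_locEmb S F 𝔪
  exact D.localGlue U hFU f c hinf (hloc _ D.g)

end Fermat.Agent.S55.G.Rec.HP61
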