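import Fermat.Agent.S55.G.Rec.HP61.Glue
import Fermat.Agent.S55.G.Rec.HP.Glue
import Fermat.Agent.S55.G.Rec.HP.FinPH599
import Fermat.Agent.S55.G.Rec.HP.SylH841
import Fermat.Agent.S55.G.SesSpecH604
import Fermat.Agent.S55.G.LocH897.ShapiroJFinal

/-!
# S55 / G / REC / HP : the Hasse principle from the upper bound G-UP (helper61)

Assembly of the adapter HP (sub-architect helper473) from its four leaves, all on main:
HP-FINp (helper599), HP-SYL (helper841), HP-GD (helper126), HP-LG (helper61), with
G-SES (helper604) and G-LOC (helper897):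

  `hassePrinciple_of_pClassUpper : G.PClassUpperSpec → HassePrincipleSpec p`   (`p` odd).
-/

set_option autoImplicit false

namespace Fermat.Agent.S55.G.Rec.HP61

open Fermat.Agent.S55.G Fermat.Agent.S55.G.Rec Fermat.Agent.S55.G.Rec.HP

/-- The finite-level Hasse principle for `p`-groups from G-UP. -/
theorem hasseFinP_of_pClassUpper (p : ℕ) [Fact p.Prime] (hp2 : p ≠ 2)
    (hUp : G.PClassUpperSpec) : HasseFinPSpec p :=
  H599.hasseFinP_of p hp2 hUp SesSpecH604.classShortExactSpec LocH897.shapiroJ

/-- The finite-level Hasse principle from G-UP. -/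
theorem hasseFin_of_pClassUpper (p : ℕ) [Fact p.Prime] (hp2 : p ≠ 2)
    (hUp : G.PClassUpperSpec) : HasseFinSpec p :=
  H841.hasseFin_of p (hasseFinP_of_pClassUpper p hp2 hUp)

/-- **Adapter HP**: the Hasse principle for `Br(K)(p)`, `p` odd, from the upper bound G-UP. -/
theorem hassePrinciple_of_pClassUpper (p : ℕ) [Fact p.Prime] (hp2 : p ≠ 2)
    (hUp : G.PClassUpperSpec) : HassePrincipleSpec p :=
  hassePrinciple_of p (hasseFin_of_pClassUpper p hp2 hUp) H126.globalDescent H126.globalUp
    localGlue

end Fermat.Agent.S55.G.Rec.HP61
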