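import Fermat.Agent.S55.G.Rec.HP61.Embed
import Fermat.Agent.S55.G.Rec.Loc.DownH363

/-!
# S55 / G / REC / HP : localisation dictionary, part 2 (helper61)

For a local embedding datum `D : LocEmb S F 𝔪 q` and an open `U ≤ G_ℚ` with `G_F ≤ U`:
`V := locSub q D.g U`, `K_V := fixedFld q V`, and `E := φ(F_𝔪)` is a finite Galois extension of
`K_V` inside `ℚ̄_q`; `ρ : V → D_𝔪` factors through an isomorphism `Gal(E/K_V) ≃ D_𝔪`.
-/

set_option autoImplicit false
set_option linter.unusedSectionVars false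
set_option linter.style.haveILetI false

noncomputable section

namespace Fermat.Agent.S55.G.Rec.HP61

open groupCohomology Fermat.Agent.S55.G Fermat.Agent.S55.G.Rec Fermat.Agent.S55.G.Rec.HP
  Fermat.Agent.S55.G.Rec.Loc
open scoped TensorProduct

local notation "Qb" => AlgebraicClosure ℚ
local notation "GQ" => (AlgebraicClosure ℚ ≃ₐ[ℚ] AlgebraicClosure ℚ)

variable {S : Finset Nat.Primes} (U : Subgroup GQ) {F : IntermediateField ℚ Qb}
  [FiniteDimensional ℚ F] [Normal ℚ F] {𝔪 : SPlace S ↥F} {q : ℕ} [Fact q.Prime]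
  (D : LocEmb S F 𝔪 q)

local notation "Gq" => (PadicAlgCl q ≃ₐ[ℚ_[q]] PadicAlgCl q)

/-- `φ(F_𝔪)` as an intermediate field of `ℚ̄_q / ℚ_q`. -/
def LocEmb.E₀ : IntermediateField ℚ_[q] (PadicAlgCl q) :=
  D.φ.fieldRange.toIntermediateField (fun x => ⟨D.ofQ x, D.φ_ofQ x⟩)

lemma LocEmb.mem_E₀ (z : PadicAlgCl q) : z ∈ D.E₀ ↔ ∃ y, D.φ y = z := Iff.rfl

lemma LocEmb.φ_mem_E₀ (y : LocField S 𝔪) : D.φ y ∈ D.E₀ := ⟨y, rfl⟩

theorem LocEmb.finiteDimensional_E₀ : FiniteDimensional ℚ_[q] ↥D.E₀ := by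
  obtain ⟨s, hs⟩ := D.fin
  let f : ↥D.E₀ →ₗ[ℚ_[q]] ↥(Submodule.span ℚ_[q] (s : Set (PadicAlgCl q))) :=
    LinearMap.codRestrict _ D.E₀.val.toLinearMap (fun z => by
      obtain ⟨y, hy⟩ := z.2
      change (z : PadicAlgCl q) ∈ _
      rw [← hy]
      exact hs y)
  have hf : Function.Injective f := fun a b hab => by
    apply Subtype.ext
    exact congrArg (fun w : ↥(Submodule.span ℚ_[q] (s : Set (PadicAlgCl q))) =>
      (w : PadicAlgCl q)) hab
  haveI : Module.Finite ℚ_[q] ↥(Submodule.span ℚ_[q] (s : Set (PadicAlgCl q))) :=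
    Module.Finite.span_finset ℚ_[q] s
  exact Module.Finite.of_injective f hf

theorem isGalois_padicAlgCl61 (q : ℕ) [Fact q.Prime] : IsGalois ℚ_[q] (PadicAlgCl q) := by
  haveI : Algebra.IsAlgebraic ℚ_[q] (PadicAlgCl q) := AlgebraicClosure.isAlgebraic ℚ_[q]
  haveI : Normal ℚ_[q] (PadicAlgCl q) := normal_padicAlgCl61 q
  exact isGalois_iff.mpr ⟨inferInstance, inferInstance⟩

/-- Elements of `G_{ℚ_q}` fixing `φ(F_𝔪)` lie in `locSub q g U`. -/
theorem LocEmb.fixingSubgroup_E₀_le (hFU : F.fixingSubgroup ≤ U) :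
    D.E₀.fixingSubgroup ≤ locSub q D.g U := by
  intro τ hτ
  have h1 : ∀ y : LocField S 𝔪, τ (D.φ y) = D.φ (locAut S ↥(lvlGal U F) 𝔪 1 y) := by
    intro y
    rw [map_one]
    exact (IntermediateField.mem_fixingSubgroup_iff D.E₀ τ).1 hτ _ (D.φ_mem_E₀ y)
  exact (D.mem_locSub_of_lift U hFU 1 τ h1).1

/-- `locSub q g U` is open. -/
theorem LocEmb.isOpenL (hFU : F.fixingSubgroup ≤ U) : IsOpenL q (locSub q D.g U) :=
  ⟨D.E₀, D.finiteDimensional_E₀, D.fixingSubgroup_E₀_le U hFU⟩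

/-- `locSub q g U` is the full fixing subgroup of its fixed field. -/
theorem LocEmb.fixingSubgroup_fixedFld (hFU : F.fixingSubgroup ≤ U) :
    (fixedFld q (locSub q D.g U)).fixingSubgroup = locSub q D.g U :=
  (H478.openSpec q _ (D.isOpenL U hFU)).2

/-- The fixed field of `locSub q g U` is contained in `φ(F_𝔪)`. -/
theorem LocEmb.fixedFld_le (hFU : F.fixingSubgroup ≤ U) :
    fixedFld q (locSub q D.g U) ≤ D.E₀ := by
  haveI := isGalois_padicAlgCl61 q
  intro x hx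
  rw [← InfiniteGalois.fixedField_fixingSubgroup D.E₀, IntermediateField.mem_fixedField_iff]
  intro τ hτ
  exact (IntermediateField.mem_fixedField_iff _ x).1 hx τ (D.fixingSubgroup_E₀_le U hFU hτ)

/-- `E = φ(F_𝔪)` as an intermediate field of `ℚ̄_q / K_V`. -/
def LocEmb.E (hFU : F.fixingSubgroup ≤ U) :
    IntermediateField (fixedFld q (locSub q D.g U)) (PadicAlgCl q) :=
  IntermediateField.extendScalars (D.fixedFld_le U hFU)

lemma LocEmb.mem_E (hFU : F.fixingSubgroup ≤ U) (z : PadicAlgCl q) :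
    z ∈ D.E U hFU ↔ ∃ y, D.φ y = z := Iff.rfl

lemma LocEmb.φ_mem_E (hFU : F.fixingSubgroup ≤ U) (y : LocField S 𝔪) : D.φ y ∈ D.E U hFU :=
  ⟨y, rfl⟩

instance LocEmb.finiteDimensional_E (hFU : F.fixingSubgroup ≤ U) :
    FiniteDimensional (fixedFld q (locSub q D.g U)) ↥(D.E U hFU) := by
  haveI := D.finiteDimensional_E₀
  haveI : FiniteDimensional ℚ_[q] ↥(D.E U hFU) :=
    inferInstanceAs (FiniteDimensional ℚ_[q] ↥D.E₀)
  exact FiniteDimensional.right ℚ_[q] (fixedFld q (locSub q D.g U)) ↥(D.E U hFU)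

/-- Every `τ ∈ V` maps `E` into itself. -/
lemma LocEmb.apply_mem_E (hFU : F.fixingSubgroup ≤ U) (τ : ↥(locSub q D.g U))
    {z : PadicAlgCl q} (hz : z ∈ D.E U hFU) : (τ : Gq) z ∈ D.E U hFU := by
  obtain ⟨y, rfl⟩ := hz
  exact ⟨locAut S ↥(lvlGal U F) 𝔪 (D.rho U τ) y, D.φ_locAut U τ y⟩

instance LocEmb.normal_E (hFU : F.fixingSubgroup ≤ U) :
    Normal (fixedFld q (locSub q D.g U)) ↥(D.E U hFU) := by
  haveI : Algebra.IsAlgebraic (fixedFld q (locSub q D.g U)) (PadicAlgCl q) :=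
    Algebra.IsAlgebraic.tower_top (K := ℚ_[q]) _
  haveI : IsAlgClosure (fixedFld q (locSub q D.g U)) (PadicAlgCl q) := ⟨inferInstance, inferInstance⟩
  haveI : Normal (fixedFld q (locSub q D.g U)) (PadicAlgCl q) := IsAlgClosure.normal _ _
  rw [IntermediateField.normal_iff_forall_map_le']
  intro σ z hz
  obtain ⟨z₀, hz₀, rfl⟩ := hz
  -- `σ` restricted to scalars `ℚ_q` lies in `V`
  have hσ : (σ.restrictScalars ℚ_[q] : Gq) ∈ locSub q D.g U := by
    have h1 : (σ.restrictScalars ℚ_[q] : Gq) ∈ (fixedFld q (locSub q D.g U)).fixingSubgroup := by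
      rw [IntermediateField.mem_fixingSubgroup_iff]
      intro x hx
      exact σ.commutes ⟨x, hx⟩
    exact (D.fixingSubgroup_fixedFld U hFU).le h1
  exact D.apply_mem_E U hFU ⟨σ.restrictScalars ℚ_[q], hσ⟩ hz₀

instance LocEmb.isGalois_E (hFU : F.fixingSubgroup ≤ U) :
    IsGalois (fixedFld q (locSub q D.g U)) ↥(D.E U hFU) :=
  isGalois_iff.mpr ⟨inferInstance, inferInstance⟩

end Fermat.Agent.S55.G.Rec.HP61
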